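/-
MAZUR (Track M), package (H) (helper7), part 4: **S15 from (R4) alone**.

All inputs of `MzhInputs2 p` except the two (R4) fields are now on main:
(E3) `mze3_ne_zero`, `mze3_order`, `mze3_hecke` (lead); (E2) `mze2_num_alpha`, `mze2_num_w` (helper1);
(R5) `mzrRho_hecke_ker` (lead, helper1, helper7).  `mzh_inputs2_of_red` fills the structure from
`red_inf`, `red_zero`; `mzh_of_red` is the statement of S15 from these two.
-/
import Fermat.Agent.Lib.Mazur.H.Final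
import Fermat.Agent.Lib.Mazur.E2.Final
import Fermat.Agent.Lib.Mazur.E.Cusp3.Hecke
import Fermat.Agent.Lib.Mazur.E.Cusp3.Genus
import Fermat.Agent.Lib.Mazur.Red.R5.Main

set_option autoImplicit false
set_option linter.unusedSectionVars false
set_option linter.style.haveILetI false

open WeierstrassCurve WeierstrassCurve.Affine

namespace Fermat.Agent.Mazur

open ModularCurve AlgebraicCurve Fermat.Agent.Curve Fermat.Agent.Curve.PlaceAux Fermat.Agent.T1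
  Fermat.Agent.T2 Fermat.Agent.TW

local notation "Qb" => AlgebraicClosure ℚ
local notation "GQ" => (AlgebraicClosure ℚ ≃ₐ[ℚ] AlgebraicClosure ℚ)

variable {p : ℕ} [hpF : Fact p.Prime]

/-- (R5) in the shape of `MzhInputs2.hecke_ker` -/
theorem mzh_hecke_ker_field (𝔓 : FFPlace) (hN : ¬ 𝔓.p ∣ p) (q : Nat.Primes)
    (hq2 : (q : ℕ) ≠ 2) (hq3 : (q : ℕ) ≠ 3) (hqp : (q : ℕ) ≠ p) (hq𝔓 : (q : ℕ) ≠ 𝔓.p)
    (x : JZero p) (hx : mzrRho 𝔓 p hN x = 0) :
    mzrRho 𝔓 p hN (heckeOperatorBar p q x) = 0 := by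
  have hqN : ¬ (q : ℕ) ∣ p * mzrAux 𝔓 := by
    intro h
    rcases (Nat.Prime.dvd_mul q.2).mp h with h1 | h1
    · exact hqp ((Nat.prime_dvd_prime_iff_eq q.2 hpF.out).mp h1)
    · rcases mzrAux_eq 𝔓 with h4 | h9
      · rw [h4] at h1
        have h2 : (q : ℕ) ∣ 2 ^ 2 := by simpa using h1
        exact hq2 ((Nat.prime_dvd_prime_iff_eq q.2 Nat.prime_two).mp (q.2.dvd_of_dvd_pow h2))
      · rw [h9] at h1
        have h2 : (q : ℕ) ∣ 3 ^ 2 := by simpa using h1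
        exact hq3 ((Nat.prime_dvd_prime_iff_eq q.2 Nat.prime_three).mp (q.2.dvd_of_dvd_pow h2))
  exact mzrRho_hecke_ker 𝔓 p hN q.2 hqN hq𝔓 x hx

/-- **the inputs of S15 from (R4)** -/
theorem mzh_inputs2_of_red (hp' : p ∉ ({2, 3, 5, 7, 13} : Finset ℕ))
    (red_inf : ∀ (𝔓 : FFPlace) (hN : ¬ 𝔓.p ∣ p) (x : Place Qb ↥(modularFunctionFieldBar p))
      (j₁ j₂ : Qb), OrdGE x (tbJ p - algebraMap Qb ↥(modularFunctionFieldBar p) j₁) 1 →
      OrdGE x (t2cpYq p p (dvd_refl p) - algebraMap Qb ↥(modularFunctionFieldBar p) j₂) 1 →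
      1 < 𝔓.P.valuation j₁ → 𝔓.P.valuation j₂ = 𝔓.P.valuation j₁ ^ p →
      mzrRho 𝔓 p hN (mzcCls p x (mzcInf p)) = 0)
    (red_zero : ∀ (𝔓 : FFPlace) (hN : ¬ 𝔓.p ∣ p) (x : Place Qb ↥(modularFunctionFieldBar p))
      (j₁ j₂ : Qb), OrdGE x (tbJ p - algebraMap Qb ↥(modularFunctionFieldBar p) j₁) 1 →
      OrdGE x (t2cpYq p p (dvd_refl p) - algebraMap Qb ↥(modularFunctionFieldBar p) j₂) 1 →
      1 < 𝔓.P.valuation j₁ → 𝔓.P.valuation j₁ = 𝔓.P.valuation j₂ ^ p →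
      mzrRho 𝔓 p hN (mzcCls p x (mzcZero p)) = 0) :
    MzhInputs2 p :=
  { cusp_ne := mze3_ne_zero p hp'
    cusp_order := mze3_order p
    cusp_hecke := fun q hq => mze3_hecke p q hq
    red_inf := red_inf
    red_zero := red_zero
    hecke_ker := mzh_hecke_ker_field
    num_alpha := fun 𝔓 hN _ hS _ _ => mze2_num_alpha 𝔓 p hN hS
    num_w := fun 𝔓 hN _ hS _ _ => mze2_num_w 𝔓 p hN hS }

end Fermat.Agent.Mazur
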