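/-
MAZUR (Track M), package (H) (helper7), part 6: **the dual abstract form of S15** (track ISOG,
package (P1-dual)).

`mzh_abstract_dual` is `mzh_abstract` (Lib/Mazur/H/Abstract.lean) with the two cusps exchanged:

  if a `ℚ`-rational place `x` of `X₀(p)` *reduces to the cusp `∞`* at (one place over) `2` and at
  (one place over) `3` (`1 < v j₁`, `v j₂ = v j₁ ^ p`), then `x` does not *reduce to the cusp `0`*
  at any place over a prime `ℓ ∉ {2, p}` (`1 < v j₁`, `v j₁ = v j₂ ^ p`).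

Same proof with `y := cls (x - ∞)`, `u := cls (x - 0)`, `c := -(0 - ∞)`; this avoids transporting
places of `X₀(p)` over `ℚ̄` through the Fricke involution.  It is applied in track ISOG to the place
`x_k = (E/N_k, N_{k+1}/N_k)` with `(j₁, j₂) = (j(E/N_k), j(E/N_{k+1}))`.

`mzh_abstract_dual_final` : the same with all inputs of `MzhInputs2 p` plugged in.
-/
import Fermat.Agent.Lib.Mazur.H.Abstract

set_option autoImplicit false
set_option linter.unusedSectionVars false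
set_option linter.style.haveILetI false

namespace Fermat.Agent.Mazur

open ModularCurve AlgebraicCurve Fermat.Agent.Curve Fermat.Agent.Curve.PlaceAux Fermat.Agent.T1
  Fermat.Agent.T2 Fermat.Agent.TW

local notation "Qb" => AlgebraicClosure ℚ
local notation "GQ" => (AlgebraicClosure ℚ ≃ₐ[ℚ] AlgebraicClosure ℚ)

variable {p : ℕ} [hpF : Fact p.Prime]

/-- **the dual abstract endgame**: a `ℚ`-rational place of `X₀(p)` cannot reduce to the cusp `∞` at
`2` and `3` and to the cusp `0` at another prime `ℓ ≠ p` -/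
theorem mzh_abstract_dual (I : MzhInputs p) (hp' : p ∉ ({2, 3, 5, 7, 13} : Finset ℕ))
    (x : Place Qb ↥(modularFunctionFieldBar p))
    (hxfix : ∀ σ : GQ, arithmeticGalois (modularFunctionFieldFull p) σ • x = x)
    (j₁ j₂ : Qb)
    (hj₁ : OrdGE x (tbJ p - algebraMap Qb ↥(modularFunctionFieldBar p) j₁) 1)
    (hj₂ : OrdGE x (t2cpYq p p (dvd_refl p) - algebraMap Qb ↥(modularFunctionFieldBar p) j₂) 1)
    (h2 : ∃ A₂ : ValuationSubring Qb, A₂.LiesOverPrime 2 ∧ 1 < A₂.valuation j₁ ∧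
      A₂.valuation j₂ = A₂.valuation j₁ ^ p)
    (h3 : ∃ A₃ : ValuationSubring Qb, A₃.LiesOverPrime 3 ∧ 1 < A₃.valuation j₁ ∧
      A₃.valuation j₂ = A₃.valuation j₁ ^ p)
    {ℓ : ℕ} (hℓ : ℓ.Prime) (hℓp : ℓ ≠ p) (hℓ2 : ℓ ≠ 2)
    (A : ValuationSubring Qb) (hA : A.LiesOverPrime ℓ)
    (hv1 : 1 < A.valuation j₁) (hv2 : A.valuation j₁ = A.valuation j₂ ^ p) : False := by
  have hp : p.Prime := hpF.out
  have hp2 : p ≠ 2 := by
    rintro rfl
    exact hp' (by decide)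
  have hp3 : p ≠ 3 := by
    rintro rfl
    exact hp' (by decide)
  -- the cuspidal class and the prime `P`
  have hp1 : 0 < p - 1 := by have := hp.two_le; omega
  have hc_ord : addOrderOf (mzcCusp p) ∣ p - 1 := addOrderOf_dvd_of_nsmul_eq_zero I.cusp_order
  have hc_pos : 0 < addOrderOf (mzcCusp p) := Nat.pos_of_dvd_of_pos hc_ord hp1
  have hc_ne1 : addOrderOf (mzcCusp p) ≠ 1 := by
    rw [Ne, AddMonoid.addOrderOf_eq_one_iff]
    exact I.cusp_ne
  set P := (addOrderOf (mzcCusp p)).minFac with hPdef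
  have hPprime : P.Prime := Nat.minFac_prime hc_ne1
  have hPdvd : P ∣ addOrderOf (mzcCusp p) := Nat.minFac_dvd _
  have hPp : P ≠ p := by
    intro h
    have h1 : P ∣ p - 1 := hPdvd.trans hc_ord
    rw [h] at h1
    exact Nat.not_dvd_of_pos_of_lt hp1 (by omega) h1
  obtain ⟨m, hm⟩ := hPdvd
  have hm0 : 0 < m := by
    rcases Nat.eq_zero_or_pos m with h | h
    · rw [h, mul_zero] at hm
      omega
    · exact h
  set cP := m • mzcCusp p with hcPdef
  have hcP_P : P • cP = 0 := by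
    rw [hcPdef, ← mul_smul, ← hm]
    exact addOrderOf_nsmul_eq_zero _
  have hcP_ne : cP ≠ 0 := by
    intro h
    have h1 : addOrderOf (mzcCusp p) ∣ m := addOrderOf_dvd_of_nsmul_eq_zero h
    rw [hm] at h1
    have h2 : P * m ≤ m := Nat.le_of_dvd hm0 h1
    have h3 : 2 * m ≤ P * m := Nat.mul_le_mul_right m hPprime.two_le
    omega
  have hcP_ord : addOrderOf cP = P := by
    haveI : Fact P.Prime := ⟨hPprime⟩
    exact addOrderOf_eq_prime hcP_P hcP_ne
  have hcP_fix : ∀ σ : GQ, σ • cP = cP := by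
    intro σ
    have := map_nsmul (DistribSMul.toAddMonoidHom (JZero p) σ) m (mzcCusp p)
    rw [hcPdef]
    exact this.trans (by rw [DistribSMul.toAddMonoidHom_apply, mzcCusp_fixed])
  have hcP_hecke : ∀ q : Nat.Primes, (q : ℕ) ≠ p →
      heckeOperatorBar p q cP = (1 + (q : ℕ)) • cP := by
    intro q hq
    rw [hcPdef, map_nsmul, I.cusp_hecke q hq, smul_comm]
  -- the set of excluded primes
  set S₀ : Finset ℕ := {2, 3, p, P, ℓ} with hS₀
  have h2S : 2 ∈ S₀ := by simp [hS₀]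
  have h3S : 3 ∈ S₀ := by simp [hS₀]
  have hpS : p ∈ S₀ := by simp [hS₀]
  have hPS : P ∈ S₀ := by simp [hS₀]
  have hℓS : ℓ ∈ S₀ := by simp [hS₀]
  have hS : MzehGood p P S₀ := by
    refine ⟨hPprime, hPS, fun q hq hqp => ?_⟩
    have : q = p := (Nat.prime_dvd_prime_iff_eq hq hp).mp hqp
    rw [this]
    exact hpS
  -- the auxiliary prime `r ∈ {2, 3}`, `r ≠ P`, with a place over it at which `x` reduces to `∞`
  obtain ⟨r, hr23, hrP, Ar, hAr, hvr1, hvr2⟩ : ∃ r : ℕ, (r = 2 ∨ r = 3) ∧ r ≠ P ∧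
      ∃ Ar : ValuationSubring Qb, Ar.LiesOverPrime r ∧ 1 < Ar.valuation j₁ ∧
        Ar.valuation j₂ = Ar.valuation j₁ ^ p := by
    by_cases h : P = 2
    · obtain ⟨A₃, hA₃, h31, h32⟩ := h3
      exact ⟨3, Or.inr rfl, by omega, A₃, hA₃, h31, h32⟩
    · obtain ⟨A₂, hA₂, h21, h22⟩ := h2
      exact ⟨2, Or.inl rfl, Ne.symm h, A₂, hA₂, h21, h22⟩
  have hrprime : r.Prime := by
    rcases hr23 with rfl | rfl <;> norm_num
  have hrp : r ≠ p := by
    rcases hr23 with rfl | rfl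
    · exact Ne.symm hp2
    · exact Ne.symm hp3
  have hrS : r ∈ S₀ := by
    rcases hr23 with rfl | rfl
    · exact h2S
    · exact h3S
  let 𝔯 : FFPlace := ⟨Ar, r, hrprime, hAr⟩
  let 𝔩 : FFPlace := ⟨A, ℓ, hℓ, hA⟩
  have hNr : ¬ 𝔯.p ∣ p := fun h => hrp ((Nat.prime_dvd_prime_iff_eq hrprime hp).mp h)
  have hNl : ¬ 𝔩.p ∣ p := fun h => hℓp ((Nat.prime_dvd_prime_iff_eq hℓ hp).mp h)
  -- the points
  have hyu : mzcCls p x (mzcInf p) = mzcCls p x (mzcZero p) - -mzcCusp p := by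
    rw [sub_neg_eq_add]
    exact (mzcCls_add p x (mzcZero p) (mzcInf p)).symm
  have hy : mzcCls p x (mzcInf p) ∈ mzhRat p := mzcCls_fixed p hxfix (mzcInf_fixed p)
  have hyr : mzrRho 𝔯 p hNr (mzcCls p x (mzcInf p)) = 0 :=
    I.red_inf 𝔯 hNr x j₁ j₂ hj₁ hj₂ hvr1 hvr2
  have hul : mzrRho 𝔩 p hNl (mzcCls p x (mzcZero p)) = 0 :=
    I.red_zero 𝔩 hNl x j₁ j₂ hj₁ hj₂ hv1 hv2
  -- the fixed-point property of the projectors on `c_P`
  have hfix : ∀ k : ℕ, 1 ≤ k → mzehE p P S₀ hS k cP = cP := by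
    intro k hk
    refine mzehE_eigen hS ?_ ?_
    · obtain ⟨d, rfl⟩ := Nat.exists_eq_add_of_le hk
      rw [pow_add, pow_one, mul_comm, mul_smul, hcP_P, smul_zero]
    · intro q
      have hq : (q.1 : ℕ) ≠ p := fun h => q.2 (h ▸ hpS)
      rw [hcP_hecke q.1 hq, ← natCast_zsmul]
      push_cast
      rfl
  -- the abstract endgame
  obtain ⟨n', hPn', hn'⟩ := mzh_core hPprime (mzhRat p) (mzehE p P S₀ hS)
    (mzrRho 𝔯 p hNr) (mzrRho 𝔩 p hNl) (I.bound P S₀ hS h2S h3S hPp)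
    (mzrRho_rational_exponent 𝔯 p hNr) (mzrRho_rational_exponent 𝔩 p hNl)
    (fun t z hz h0 => mzrRho_injective_torsion 𝔯 p hNr
      (fun h => hrP ((Nat.prime_dvd_prime_iff_eq hrprime hPprime).mp
        (hrprime.dvd_of_dvd_pow h))) z hz h0)
    (fun k z hz => mzh_rho_e I hS h2S h3S hpS 𝔯 hNr hrS k z hz)
    (fun k z hz => mzh_rho_e I hS h2S h3S hpS 𝔩 hNl hℓS k z hz)
    hy hyr hyu hul (cP := -cP) (m := m) (by rw [hcPdef]; exact (smul_neg m (mzcCusp p)).symm)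
    ⟨1, fun k hk => by rw [map_neg, hfix k hk]⟩
  have hn'' : mzrRho 𝔩 p hNl (n' • cP) = 0 := by
    have h := hn'
    have e : n' • -cP = -(n' • cP) := smul_neg n' cP
    rw [e, map_neg, neg_eq_zero] at h
    exact h
  -- `w := n' • c_P` is a nonzero rational point of order `P` reducing to zero at `ℓ`
  have hw0 : n' • cP ≠ 0 := by
    intro h
    have := addOrderOf_dvd_of_nsmul_eq_zero h
    rw [hcP_ord] at this
    exact hPn' this
  have hwP : P • (n' • cP) = 0 := by rw [smul_comm, hcP_P, smul_zero]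
  by_cases hℓP : ℓ = P
  · -- the cyclotomic contradiction
    have hP3 : 3 ≤ P := by
      have := hPprime.two_le
      rcases Nat.lt_or_ge P 3 with h | h
      · exfalso
        have : P = 2 := by omega
        exact hℓ2 (hℓP.trans this)
      · exact h
    refine mzh_cyc_contra hS hP3 𝔩 hℓP hNl hw0 hwP ?_ ?_ hn''
    · intro σ
      have := map_nsmul (DistribSMul.toAddMonoidHom (JZero p) σ) n' cP
      exact this.trans (by rw [DistribSMul.toAddMonoidHom_apply, hcP_fix])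
    · rw [map_nsmul, hfix 1 le_rfl]
  · -- injectivity of the reduction on prime-to-`ℓ` torsion
    exact hw0 (mzrRho_injective_torsion 𝔩 p hNl
      (fun h => hℓP ((Nat.prime_dvd_prime_iff_eq hℓ hPprime).mp h)) _ hwP hn'')

/-- **the dual abstract form of S15**, all inputs plugged in -/
theorem mzh_abstract_dual_final (hp' : p ∉ ({2, 3, 5, 7, 13} : Finset ℕ))
    (x : Place Qb ↥(modularFunctionFieldBar p))
    (hxfix : ∀ σ : GQ, arithmeticGalois (modularFunctionFieldFull p) σ • x = x)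
    (j₁ j₂ : Qb)
    (hj₁ : OrdGE x (tbJ p - algebraMap Qb ↥(modularFunctionFieldBar p) j₁) 1)
    (hj₂ : OrdGE x (t2cpYq p p (dvd_refl p) - algebraMap Qb ↥(modularFunctionFieldBar p) j₂) 1)
    (h2 : ∃ A₂ : ValuationSubring Qb, A₂.LiesOverPrime 2 ∧ 1 < A₂.valuation j₁ ∧
      A₂.valuation j₂ = A₂.valuation j₁ ^ p)
    (h3 : ∃ A₃ : ValuationSubring Qb, A₃.LiesOverPrime 3 ∧ 1 < A₃.valuation j₁ ∧
      A₃.valuation j₂ = A₃.valuation j₁ ^ p)
    {ℓ : ℕ} (hℓ : ℓ.Prime) (hℓp : ℓ ≠ p) (hℓ2 : ℓ ≠ 2)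
    (A : ValuationSubring Qb) (hA : A.LiesOverPrime ℓ)
    (hv1 : 1 < A.valuation j₁) (hv2 : A.valuation j₁ = A.valuation j₂ ^ p) : False := by
  have hp2 : p ≠ 2 := by
    rintro rfl
    exact hp' (by decide)
  have hp3 : p ≠ 3 := by
    rintro rfl
    exact hp' (by decide)
  exact mzh_abstract_dual (mzh_inputs_of (mzh_inputs2_of_red hp'
      (fun 𝔓 hN x j₁ j₂ => mzrf_red_inf 𝔓 p hN x j₁ j₂)
      (fun 𝔓 hN x j₁ j₂ => mzrf_red_zero 𝔓 p hN x j₁ j₂)) hp2 hp3)
    hp' x hxfix j₁ j₂ hj₁ hj₂ h2 h3 hℓ hℓp hℓ2 A hA hv1 hv2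

end Fermat.Agent.Mazur
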