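/-
MAZUR (Track M), package (H) (helper7), part 1: **the abstract endgame**.

`J` an abelian group ("`J₀(p)(ℚ̄)`"), `Rat ≤ J` the rational points, `e k : J →+ J` the Eisenstein
projectors, `ρ_r, ρ_ℓ : J →+ B` two reduction maps.  Hypotheses:

* (BOUND')  `∃ j, ∀ k, ∀ y ∈ Rat, ∃ z ∈ Rat, P^j • e k y = P^k • z`;
* (R3) rational points have bounded exponent under `ρ_r`, `ρ_ℓ`;
* (R2) at `r ≠ P` : `ρ_r` is injective on `P`-power torsion;
* (R5) `ρ x = 0 → ρ (e k x) = 0` for both reductions;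
* `y ∈ Rat` with `ρ_r y = 0` and `y = u - c` with `ρ_ℓ u = 0`;
* `c_P = m • c` with `e k c_P = c_P` for `k ≥ k₀`.

Conclusion (`mzh_core`): `ρ_ℓ (n' • c_P) = 0` for some `n'` prime to `P`.  In the application
`y = [(x) - (0)]`, `u = [(x) - (∞)]`, `c = [(0) - (∞)]`; the conclusion contradicts (R2) at `ℓ ≠ P`,
resp. the cyclotomic action of inertia on the connected part at `ℓ = P`.
-/
import Mathlib

set_option autoImplicit false

namespace Fermat.Agent.Mazur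

section

variable {J : Type*} [AddCommGroup J]

/-- an element killed by two coprime natural numbers is zero -/
theorem mzh_eq_zero_of_coprime {B : Type*} [AddCommGroup B] {a b : ℕ} (hab : Nat.Coprime a b)
    {x : B} (ha : a • x = 0) (hb : b • x = 0) : x = 0 := by
  have h1 : (Nat.gcd a b) • x = 0 := by
    have h2 : ((Nat.gcd a b : ℕ) : ℤ) • x = 0 := by
      rw [Nat.gcd_eq_gcd_ab, add_smul, mul_smul, mul_smul, natCast_zsmul, natCast_zsmul,
        smul_comm a (a.gcdA b) x, ha, smul_comm b (a.gcdB b) x, hb, smul_zero, smul_zero, add_zero]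
    rwa [natCast_zsmul] at h2
  rwa [hab, one_smul] at h1

/-- split off the `P`-part of a positive natural number -/
theorem mzh_exists_split {P : ℕ} (hP : P.Prime) {n : ℕ} (hn : 0 < n) :
    ∃ s n' : ℕ, n = P ^ s * n' ∧ ¬ P ∣ n' := by
  obtain ⟨s, n', hn', h⟩ := Nat.exists_eq_pow_mul_and_not_dvd hn.ne' P hP.ne_one
  exact ⟨s, n', h, hn'⟩

variable {B₁ B₂ : Type*} [AddCommGroup B₁] [AddCommGroup B₂]

/-- **the abstract endgame** -/
theorem mzh_core {P : ℕ} (hP : P.Prime) (Rat : AddSubgroup J) (e : ℕ → (J →+ J))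
    (ρr : J →+ B₁) (ρl : J →+ B₂)
    (hbound : ∃ j : ℕ, ∀ k : ℕ, ∀ y ∈ Rat, ∃ z ∈ Rat, P ^ j • e k y = P ^ k • z)
    (hr_exp : ∃ n : ℕ, 0 < n ∧ ∀ z ∈ Rat, n • ρr z = 0)
    (hl_exp : ∃ n : ℕ, 0 < n ∧ ∀ z ∈ Rat, n • ρl z = 0)
    (hr_inj : ∀ (t : ℕ) (x : J), P ^ t • x = 0 → ρr x = 0 → x = 0)
    (hr_e : ∀ (k : ℕ) (x : J), ρr x = 0 → ρr (e k x) = 0)
    (hl_e : ∀ (k : ℕ) (x : J), ρl x = 0 → ρl (e k x) = 0)
    {y u c : J} (hy : y ∈ Rat) (hyr : ρr y = 0) (hyu : y = u - c) (hul : ρl u = 0)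
    {m : ℕ} {cP : J} (hcP : cP = m • c) (hfix : ∃ k₀ : ℕ, ∀ k : ℕ, k₀ ≤ k → e k cP = cP) :
    ∃ n' : ℕ, ¬ P ∣ n' ∧ ρl (n' • cP) = 0 := by
  obtain ⟨j, hj⟩ := hbound
  obtain ⟨nr, hnr, hnr'⟩ := hr_exp
  obtain ⟨nl, hnl, hnl'⟩ := hl_exp
  obtain ⟨s, n₁, hn₁, hPn₁⟩ := mzh_exists_split hP hnr
  obtain ⟨s', n₂, hn₂, hPn₂⟩ := mzh_exists_split hP hnl
  obtain ⟨k₀, hfix⟩ := hfix
  refine ⟨n₂, hPn₂, ?_⟩
  set k := j + s + s' + 1 + k₀ with hk
  obtain ⟨z, hz, hjz⟩ := hj k y hy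
  -- the torsion defect `a`
  set a := e k y - P ^ (k - j) • z with ha
  have hkj : P ^ j * P ^ (k - j) = P ^ k := by
    rw [← pow_add]
    congr 1
    omega
  have haP : P ^ j • a = 0 := by
    rw [ha, smul_sub, hjz, ← mul_smul, hkj, sub_self]
  have hρa : ρr a = -(P ^ (k - j) • ρr z) := by
    rw [ha, map_sub, hr_e k y hyr, zero_sub, map_nsmul]
  have h1 : n₁ • ρr a = 0 := by
    rw [hρa, smul_neg, neg_eq_zero, ← mul_smul]
    have : n₁ * P ^ (k - j) = P ^ (k - j - s) * nr := by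
      rw [hn₁, ← mul_assoc, ← pow_add, mul_comm]
      congr 2
      omega
    rw [this, mul_smul, hnr' z hz, smul_zero]
  have h2 : P ^ j • ρr a = 0 := by
    rw [← map_nsmul, haP, map_zero]
  have hcop : Nat.Coprime n₁ (P ^ j) :=
    Nat.Coprime.pow_right j ((Nat.Prime.coprime_iff_not_dvd hP).mpr hPn₁).symm
  have hρa0 : ρr a = 0 := mzh_eq_zero_of_coprime hcop h1 h2
  have ha0 : a = 0 := hr_inj j a haP hρa0
  have hey : e k y = P ^ (k - j) • z := sub_eq_zero.mp ha0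
  -- reduce at `ℓ`
  have h3 : n₂ • ρl (e k y) = 0 := by
    rw [hey, map_nsmul, ← mul_smul]
    have : n₂ * P ^ (k - j) = P ^ (k - j - s') * nl := by
      rw [hn₂, ← mul_assoc, ← pow_add, mul_comm]
      congr 2
      omega
    rw [this, mul_smul, hnl' z hz, smul_zero]
  have h4 : ρl (e k y) = -ρl (e k c) := by
    rw [hyu, map_sub, map_sub, hl_e k u hul, zero_sub]
  have h5 : n₂ • ρl (e k c) = 0 := by
    rw [h4, smul_neg, neg_eq_zero] at h3
    exact h3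
  have h6 : cP = m • e k c := by
    have := hfix k (by omega)
    rw [hcP, map_nsmul] at this
    rw [hcP]
    exact this.symm
  rw [map_nsmul, h6, map_nsmul, smul_comm, h5, smul_zero]

end

end Fermat.Agent.Mazur
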