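/-
MAZUR (Track M), package (H) (helper7), part 2: **the endgame of S15**, from the exports of the
other packages (collected in the structure `MzhInputs p`):

* (E3) the cuspidal class `c = mzcCusp p` : `c ≠ 0`, `(p - 1) • c = 0`, `T_q c = (1 + q) • c`;
* (R4) reduction of `[(x) - (∞)]`, `[(x) - (0)]` in the `(j, j_p)`-valuation shape of `mzg_main`;
* (R5) `ρ x = 0 → ρ (T_q x) = 0`;
* (BOUND') the output of package (B).

`mzh_main` : the statement of S15 from `MzhInputs p`.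
-/
import Fermat.Agent.Lib.Mazur.H.Core
import Fermat.Agent.Lib.Mazur.G.Main.Main
import Fermat.Agent.Lib.Mazur.Cusp.Defs
import Fermat.Agent.Lib.Mazur.E.JH.Main
import Fermat.Agent.Lib.Mazur.LocP.Inst.Main
import Fermat.Agent.Lib.Mazur.Red.R3
import Fermat.Agent.Lib.TW.Local.CycloRamified

set_option autoImplicit false
set_option linter.unusedSectionVars false
set_option linter.style.haveILetI false

open WeierstrassCurve WeierstrassCurve.Affine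

namespace Fermat.Agent.Mazur

open ModularCurve AlgebraicCurve Fermat.Agent.Curve Fermat.Agent.Curve.PlaceAux Fermat.Agent.T1
  Fermat.Agent.T2
  Fermat.Agent.TW

local notation "Qb" => AlgebraicClosure ℚ
local notation "GQ" => (AlgebraicClosure ℚ ≃ₐ[ℚ] AlgebraicClosure ℚ)

/-- the inputs of the endgame (proved in the packages (E3), (R4), (R5), (B)) -/
structure MzhInputs (p : ℕ) [Fact p.Prime] : Prop where
  cusp_ne : mzcCusp p ≠ 0
  cusp_order : (p - 1) • mzcCusp p = 0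
  cusp_hecke : ∀ q : Nat.Primes, (q : ℕ) ≠ p →
    heckeOperatorBar p q (mzcCusp p) = (1 + (q : ℕ)) • mzcCusp p
  red_inf : ∀ (𝔓 : FFPlace) (hN : ¬ 𝔓.p ∣ p) (x : Place Qb ↥(modularFunctionFieldBar p))
    (j₁ j₂ : Qb), OrdGE x (tbJ p - algebraMap Qb ↥(modularFunctionFieldBar p) j₁) 1 →
    OrdGE x (t2cpYq p p (dvd_refl p) - algebraMap Qb ↥(modularFunctionFieldBar p) j₂) 1 →
    1 < 𝔓.P.valuation j₁ → 𝔓.P.valuation j₂ = 𝔓.P.valuation j₁ ^ p →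
    mzrRho 𝔓 p hN (mzcCls p x (mzcInf p)) = 0
  red_zero : ∀ (𝔓 : FFPlace) (hN : ¬ 𝔓.p ∣ p) (x : Place Qb ↥(modularFunctionFieldBar p))
    (j₁ j₂ : Qb), OrdGE x (tbJ p - algebraMap Qb ↥(modularFunctionFieldBar p) j₁) 1 →
    OrdGE x (t2cpYq p p (dvd_refl p) - algebraMap Qb ↥(modularFunctionFieldBar p) j₂) 1 →
    1 < 𝔓.P.valuation j₁ → 𝔓.P.valuation j₁ = 𝔓.P.valuation j₂ ^ p →
    mzrRho 𝔓 p hN (mzcCls p x (mzcZero p)) = 0
  hecke_ker : ∀ (𝔓 : FFPlace) (hN : ¬ 𝔓.p ∣ p) (q : Nat.Primes), (q : ℕ) ≠ 2 → (q : ℕ) ≠ 3 →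
    (q : ℕ) ≠ p → (q : ℕ) ≠ 𝔓.p → ∀ x : JZero p, mzrRho 𝔓 p hN x = 0 →
    mzrRho 𝔓 p hN (heckeOperatorBar p q x) = 0
  bound : ∀ (P : ℕ) (S₀ : Finset ℕ) (hS : MzehGood p P S₀), 2 ∈ S₀ → 3 ∈ S₀ → P ≠ p →
    ∃ j : ℕ, ∀ k : ℕ, ∀ y : JZero p, (∀ σ : GQ, σ • y = y) →
      ∃ z : JZero p, (∀ σ : GQ, σ • z = z) ∧ P ^ j • mzehE p P S₀ hS k y = P ^ k • z

section

variable {p : ℕ} [hpF : Fact p.Prime]

/-- the rational points of `J₀(p)` -/
def mzhRat (p : ℕ) [Fact p.Prime] : AddSubgroup (JZero p) where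
  carrier := {x | ∀ σ : GQ, σ • x = x}
  zero_mem' := fun σ => smul_zero (A := JZero p) σ
  add_mem' := fun {x y} hx hy σ => by rw [smul_add, hx σ, hy σ]
  neg_mem' := fun {x} hx σ => by rw [smul_neg, hx σ]

theorem mem_mzhRat {x : JZero p} : x ∈ mzhRat p ↔ ∀ σ : GQ, σ • x = x := Iff.rfl

/-- (R5) for the Eisenstein projectors -/
theorem mzh_rho_e (I : MzhInputs p) {P : ℕ} {S₀ : Finset ℕ} (hS : MzehGood p P S₀)
    (h2 : 2 ∈ S₀) (h3 : 3 ∈ S₀) (hpS : p ∈ S₀) (𝔓 : FFPlace) (hN : ¬ 𝔓.p ∣ p)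
    (h𝔓 : 𝔓.p ∈ S₀) (k : ℕ) (x : JZero p) (hx : mzrRho 𝔓 p hN x = 0) :
    mzrRho 𝔓 p hN (mzehE p P S₀ hS k x) = 0 := by
  refine mzehE_induction hS k
    (fun f => ∀ x : JZero p, mzrRho 𝔓 p hN x = 0 → mzrRho 𝔓 p hN (f x) = 0) ?_ ?_ ?_ ?_ ?_ ?_ x hx
  · intro q x hx
    have hq : ∀ n ∈ S₀, (q.1 : ℕ) ≠ n := fun n hn h => q.2 (h ▸ hn)
    exact I.hecke_ker 𝔓 hN q.1 (hq 2 h2) (hq 3 h3) (hq p hpS) (hq _ h𝔓) x hx
  · intro x _
    exact map_zero _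
  · intro x hx
    exact hx
  · intro f g hf hg x hx
    show mzrRho 𝔓 p hN (f x + g x) = 0
    rw [map_add, hf x hx, hg x hx, add_zero]
  · intro f hf x hx
    show mzrRho 𝔓 p hN (-f x) = 0
    rw [map_neg, hf x hx, neg_zero]
  · intro f g hf hg x hx
    exact hf _ (hg x hx)

/-- the cyclotomic contradiction at `ℓ = P`: a nonzero rational point of order `P` of `M 1` cannot
reduce to zero at a place over `P ≥ 3` -/
theorem mzh_cyc_contra {P : ℕ} {S₀ : Finset ℕ} (hS : MzehGood p P S₀) (hP3 : 3 ≤ P)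
    (𝔩 : FFPlace) (h𝔩 : 𝔩.p = P) (hN : ¬ 𝔩.p ∣ p) {w : JZero p} (hw0 : w ≠ 0)
    (hwP : P • w = 0) (hwfix : ∀ σ : GQ, σ • w = w)
    (hwe : mzehE p P S₀ hS 1 w = w) (hwρ : mzrRho 𝔩 p hN w = 0) : False := by
  haveI : Fact P.Prime := ⟨hS.1⟩
  haveI : NeZero P := ⟨hS.1.ne_zero⟩
  obtain ⟨n, F, hF0, hFn, hmono, hstab, hcard, -⟩ := mzj_main hS 1
  have hcyc := mzqi_cyc 𝔩 p hN (mzjVal hS 1) (mzjVal_injective hS 1)
    (fun τ _ x => mzjVal_smul hS 1 τ x) n F hF0 hFn hmono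
    (fun j hj τ _ x hx => hstab j hj τ x hx) (fun j hj => (hcard j hj).trans h𝔩.symm)
  have hmem : w ∈ mzehM p P S₀ hS 1 := (mem_mzehM hS).mpr ⟨by rw [pow_one]; exact hwP, hwe⟩
  let x₀' : ↥(mzehM p P S₀ hS 1) := ⟨w, hmem⟩
  let x₀ : MzjX hS 1 := x₀'
  have hx₀val : mzjVal hS 1 x₀ = w := rfl
  have hx₀X0 : x₀ ∈ mzqiX0 𝔩 p hN (mzjVal hS 1) := (mem_mzqiX0 𝔩 p hN _ _).mpr hwρ
  have hx₀0 : x₀ ≠ 0 := by
    intro h
    apply hw0
    rw [← hx₀val, h, map_zero]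
  have hx₀P : P • x₀ = 0 := by
    apply mzjVal_injective hS 1
    rw [map_nsmul, hx₀val, hwP, map_zero]
  have hord : addOrderOf x₀ = P := addOrderOf_eq_prime hx₀P hx₀0
  have hζcard : (Fermat.Agent.CFT.Pinf.zetaQbar P) ^ Nat.card (MzjX hS 1) = 1 := by
    have hdvd : P ∣ Nat.card (MzjX hS 1) := by
      have := addOrderOf_dvd_natCard x₀
      rwa [hord] at this
    obtain ⟨d, hd⟩ := hdvd
    rw [hd, pow_mul, (Fermat.Agent.CFT.Pinf.zetaQbar_spec P).pow_eq_one, one_pow]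
  -- every element of the inertia group fixes the `P`-th roots of unity
  have hfixζ : ∀ i ∈ 𝔩.I, ∀ t : Qb, t ^ P = 1 → i t = t := by
    intro i hi t ht
    obtain ⟨e, he1, he2⟩ := hcyc i hi
    have h1 : i • x₀ = e • x₀ := he1 x₀ hx₀X0
    have h2 : i • x₀ = x₀ := by
      apply mzjVal_injective hS 1
      rw [mzjVal_smul, hx₀val, hwfix]
    have h3 : e • x₀ = 1 • x₀ := by rw [← h1, h2, one_smul]
    have h4 : e ≡ 1 [MOD P] := by
      have := nsmul_eq_nsmul_iff_modEq.mp h3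
      rwa [hord] at this
    have h5 : i (Fermat.Agent.CFT.Pinf.zetaQbar P) = Fermat.Agent.CFT.Pinf.zetaQbar P := by
      rw [he2 _ hζcard, pow_eq_pow_mod e (Fermat.Agent.CFT.Pinf.zetaQbar_spec P).pow_eq_one, h4,
        ← pow_eq_pow_mod 1 (Fermat.Agent.CFT.Pinf.zetaQbar_spec P).pow_eq_one, pow_one]
    obtain ⟨k, -, rfl⟩ := (Fermat.Agent.CFT.Pinf.zetaQbar_spec P).eq_pow_of_pow_eq_one ht
    rw [map_pow, h5]
  have hA' : 𝔩.P.LiesOverPrime P := h𝔩 ▸ 𝔩.hP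
  obtain ⟨σ, hσ, hσ1⟩ := tw_exists_inertia_cycloChar_ne_one P hP3 𝔩.P hA'
  exact hσ1 (Fermat.Agent.CFT.Bridge.cycloChar_eq_one_of_fixes P σ (hfixζ σ hσ))

/-- **the endgame**: the statement of S15 from the exports of the other packages -/
theorem mzh_main (I : MzhInputs p) (hp' : p ∉ ({2, 3, 5, 7, 13} : Finset ℕ))
    (W : WeierstrassCurve ℤ) (hΔ : W.Δ ≠ 0)
    (Q : ((W.map (Int.castRingHom ℚ))⁄Qb).Point)
    (hQfix : ∀ σ : GQ, σ • Q = Q) (hQord : addOrderOf Q = p)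
    (h2Δ : (2 : ℤ) ∣ W.Δ) (h2c₄ : ¬ (2 : ℤ) ∣ W.c₄)
    (h2 : ∀ A : ValuationSubring Qb, A.LiesOverPrime 2 → ¬ W.InZeroComponentAt A Q)
    (h3Δ : (3 : ℤ) ∣ W.Δ) (h3c₄ : ¬ (3 : ℤ) ∣ W.c₄)
    (h3 : ∀ A : ValuationSubring Qb, A.LiesOverPrime 3 → ¬ W.InZeroComponentAt A Q)
    {ℓ : ℕ} (hℓ : ℓ.Prime) (hℓp : ℓ ≠ p) (hℓΔ : (ℓ : ℤ) ∣ W.Δ) (hℓc₄ : ¬ (ℓ : ℤ) ∣ W.c₄)
    (A : ValuationSubring Qb) (hA : A.LiesOverPrime ℓ) :
    ¬ W.InZeroComponentAt A Q := by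
  intro hzero
  have hp : p.Prime := hpF.out
  have hp2 : p ≠ 2 := by
    rintro rfl
    exact hp' (by decide)
  have hp3 : p ≠ 3 := by
    rintro rfl
    exact hp' (by decide)
  obtain ⟨x, j₁, j₂, hj₁, hj₂, hloc⟩ := mzg_main hp hp2 W hΔ Q hQfix hQord
  have hℓ2 : ℓ ≠ 2 := by
    rintro rfl
    exact h2 A hA hzero
  have hℓ3 : ℓ ≠ 3 := by
    rintro rfl
    exact h3 A hA hzero
  -- at `ℓ`
  obtain ⟨hv1, hI, -⟩ := hloc ℓ hℓ hℓp hℓΔ hℓc₄ A hA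
  obtain ⟨hv2, hxfix⟩ := hI hzero
  -- the cuspidal class and the prime `P`
  have hp1 : 0 < p - 1 := by have := hp.two_le; omega
  have hc_ord : addOrderOf (mzcCusp p) ∣ p - 1 := addOrderOf_dvd_of_nsmul_eq_zero I.cusp_order
  have hc_pos : 0 < addOrderOf (mzcCusp p) := Nat.pos_of_dvd_of_pos hc_ord hp1
  have hc_ne1 : addOrderOf (mzcCusp p) ≠ 1 := by
    rw [Ne, AddMonoid.addOrderOf_eq_one_iff]
    exact I.cusp_ne
  set P := (addOrderOf (mzcCusp p)).minFac with hPdef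
  have hPprime : P.Prime := Nat.minFac_prime hc_ne1
  have hPdvd : P ∣ addOrderOf (mzcCusp p) := Nat.minFac_dvd _
  have hPp : P ≠ p := by
    intro h
    have h1 : P ∣ p - 1 := hPdvd.trans hc_ord
    rw [h] at h1
    exact Nat.not_dvd_of_pos_of_lt hp1 (by omega) h1
  obtain ⟨m, hm⟩ := hPdvd
  have hm0 : 0 < m := by
    rcases Nat.eq_zero_or_pos m with h | h
    · rw [h, mul_zero] at hm
      omega
    · exact h
  set cP := m • mzcCusp p with hcPdef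
  have hcP_P : P • cP = 0 := by
    rw [hcPdef, ← mul_smul, ← hm]
    exact addOrderOf_nsmul_eq_zero _
  have hcP_ne : cP ≠ 0 := by
    intro h
    have h1 : addOrderOf (mzcCusp p) ∣ m := addOrderOf_dvd_of_nsmul_eq_zero h
    rw [hm] at h1
    have h2 : P * m ≤ m := Nat.le_of_dvd hm0 h1
    have h3 : 2 * m ≤ P * m := Nat.mul_le_mul_right m hPprime.two_le
    omega
  have hcP_ord : addOrderOf cP = P := by
    haveI : Fact P.Prime := ⟨hPprime⟩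
    exact addOrderOf_eq_prime hcP_P hcP_ne
  have hcP_fix : ∀ σ : GQ, σ • cP = cP := by
    intro σ
    have := map_nsmul (DistribSMul.toAddMonoidHom (JZero p) σ) m (mzcCusp p)
    rw [hcPdef]
    exact this.trans (by rw [DistribSMul.toAddMonoidHom_apply, mzcCusp_fixed])
  have hcP_hecke : ∀ q : Nat.Primes, (q : ℕ) ≠ p →
      heckeOperatorBar p q cP = (1 + (q : ℕ)) • cP := by
    intro q hq
    rw [hcPdef, map_nsmul, I.cusp_hecke q hq, smul_comm]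
  -- the set of excluded primes
  set S₀ : Finset ℕ := {2, 3, p, P, ℓ} with hS₀
  have h2S : 2 ∈ S₀ := by simp [hS₀]
  have h3S : 3 ∈ S₀ := by simp [hS₀]
  have hpS : p ∈ S₀ := by simp [hS₀]
  have hPS : P ∈ S₀ := by simp [hS₀]
  have hℓS : ℓ ∈ S₀ := by simp [hS₀]
  have hS : MzehGood p P S₀ := by
    refine ⟨hPprime, hPS, fun q hq hqp => ?_⟩
    have : q = p := (Nat.prime_dvd_prime_iff_eq hq hp).mp hqp
    rw [this]
    exact hpS
  -- the auxiliary prime `r ∈ {2, 3}`, `r ≠ P`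
  obtain ⟨r, hr23, hrP⟩ : ∃ r : ℕ, (r = 2 ∨ r = 3) ∧ r ≠ P := by
    by_cases h : P = 2
    · exact ⟨3, Or.inr rfl, by omega⟩
    · exact ⟨2, Or.inl rfl, Ne.symm h⟩
  have hrprime : r.Prime := by
    rcases hr23 with rfl | rfl <;> norm_num
  have hrp : r ≠ p := by
    rcases hr23 with rfl | rfl
    · exact Ne.symm hp2
    · exact Ne.symm hp3
  have hrS : r ∈ S₀ := by
    rcases hr23 with rfl | rfl
    · exact h2S
    · exact h3S
  have hrΔ : ((r : ℕ) : ℤ) ∣ W.Δ := by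
    rcases hr23 with rfl | rfl
    · exact h2Δ
    · exact h3Δ
  have hrc₄ : ¬ ((r : ℕ) : ℤ) ∣ W.c₄ := by
    rcases hr23 with rfl | rfl
    · exact h2c₄
    · exact h3c₄
  have hrQ : ∀ A : ValuationSubring Qb, A.LiesOverPrime r → ¬ W.InZeroComponentAt A Q := by
    rcases hr23 with rfl | rfl
    · exact h2
    · exact h3
  obtain ⟨Ar, hAr⟩ :=
    Fermat.Agent.Lib.Helper6.exists_valuationSubring_liesOverPrime Qb hrprime
  let 𝔯 : FFPlace := ⟨Ar, r, hrprime, hAr⟩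
  let 𝔩 : FFPlace := ⟨A, ℓ, hℓ, hA⟩
  have hNr : ¬ 𝔯.p ∣ p := fun h => hrp ((Nat.prime_dvd_prime_iff_eq hrprime hp).mp h)
  have hNl : ¬ 𝔩.p ∣ p := fun h => hℓp ((Nat.prime_dvd_prime_iff_eq hℓ hp).mp h)
  obtain ⟨hvr1, -, hII⟩ := hloc r hrprime hrp hrΔ hrc₄ Ar hAr
  have hvr2 := hII (hrQ Ar hAr)
  -- the points
  have hyu : mzcCls p x (mzcZero p) = mzcCls p x (mzcInf p) - mzcCusp p := by
    rw [eq_sub_iff_add_eq]
    exact mzcCls_add p x (mzcZero p) (mzcInf p)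
  have hy : mzcCls p x (mzcZero p) ∈ mzhRat p := mzcCls_fixed p hxfix (mzcZero_fixed p)
  have hyr : mzrRho 𝔯 p hNr (mzcCls p x (mzcZero p)) = 0 :=
    I.red_zero 𝔯 hNr x j₁ j₂ hj₁ hj₂ hvr1 hvr2
  have hul : mzrRho 𝔩 p hNl (mzcCls p x (mzcInf p)) = 0 :=
    I.red_inf 𝔩 hNl x j₁ j₂ hj₁ hj₂ hv1 hv2
  -- the fixed-point property of the projectors on `c_P`
  have hfix : ∀ k : ℕ, 1 ≤ k → mzehE p P S₀ hS k cP = cP := by
    intro k hk
    refine mzehE_eigen hS ?_ ?_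
    · obtain ⟨d, rfl⟩ := Nat.exists_eq_add_of_le hk
      rw [pow_add, pow_one, mul_comm, mul_smul, hcP_P, smul_zero]
    · intro q
      have hq : (q.1 : ℕ) ≠ p := fun h => q.2 (h ▸ hpS)
      rw [hcP_hecke q.1 hq, ← natCast_zsmul]
      push_cast
      rfl
  -- the abstract endgame
  obtain ⟨n', hPn', hn'⟩ := mzh_core hPprime (mzhRat p) (mzehE p P S₀ hS)
    (mzrRho 𝔯 p hNr) (mzrRho 𝔩 p hNl) (I.bound P S₀ hS h2S h3S hPp)
    (mzrRho_rational_exponent 𝔯 p hNr) (mzrRho_rational_exponent 𝔩 p hNl)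
    (fun t z hz h0 => mzrRho_injective_torsion 𝔯 p hNr
      (fun h => hrP ((Nat.prime_dvd_prime_iff_eq hrprime hPprime).mp
        (hrprime.dvd_of_dvd_pow h))) z hz h0)
    (fun k z hz => mzh_rho_e I hS h2S h3S hpS 𝔯 hNr hrS k z hz)
    (fun k z hz => mzh_rho_e I hS h2S h3S hpS 𝔩 hNl hℓS k z hz)
    hy hyr hyu hul rfl ⟨1, hfix⟩
  -- `w := n' • c_P` is a nonzero rational point of order `P` reducing to zero at `ℓ`
  have hw0 : n' • cP ≠ 0 := by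
    intro h
    have := addOrderOf_dvd_of_nsmul_eq_zero h
    rw [hcP_ord] at this
    exact hPn' this
  have hwP : P • (n' • cP) = 0 := by rw [smul_comm, hcP_P, smul_zero]
  by_cases hℓP : ℓ = P
  · -- the cyclotomic contradiction
    have hP3 : 3 ≤ P := by
      have := hPprime.two_le
      rcases Nat.lt_or_ge P 3 with h | h
      · exfalso
        have : P = 2 := by omega
        exact hℓ2 (hℓP.trans this)
      · exact h
    refine mzh_cyc_contra hS hP3 𝔩 hℓP hNl hw0 hwP ?_ ?_ hn'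
    · intro σ
      have := map_nsmul (DistribSMul.toAddMonoidHom (JZero p) σ) n' cP
      exact this.trans (by rw [DistribSMul.toAddMonoidHom_apply, hcP_fix])
    · rw [map_nsmul, hfix 1 le_rfl]
  · -- injectivity of the reduction on prime-to-`ℓ` torsion
    exact hw0 (mzrRho_injective_torsion 𝔩 p hNl
      (fun h => hℓP ((Nat.prime_dvd_prime_iff_eq hℓ hPprime).mp h)) _ hwP hn')

end

end Fermat.Agent.Mazur
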