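/-
MAZUR (Track M), package (H) (helper7), part 3: **S15 from the exports of (E2), (E3), (R4), (R5)**.

`MzhInputs2 p` collects the remaining inputs in their literal shapes:
* (E3) the cuspidal class: `c ≠ 0`, `(p - 1) • c = 0`, `T_q c = (1 + q) • c`;
* (R4) reduction of `[(x) - (∞)]`, `[(x) - (0)]` in the `(j, j_p)`-valuation shape of `mzg_main`;
* (R5) `ρ x = 0 → ρ (T_q x) = 0`;
* (E2) the numerics (N-α) and (N-w) for the Eisenstein parts `M k = MzjX hS k`.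

`mzh_inputs_of : MzhInputs2 p → MzhInputs p` (via `mzb_bound`), hence `mzh_final`: the statement
of S15.
-/
import Fermat.Agent.Lib.Mazur.H.Main
import Fermat.Agent.Lib.Mazur.B.Main

set_option autoImplicit false
set_option linter.unusedSectionVars false
set_option linter.style.haveILetI false

open WeierstrassCurve WeierstrassCurve.Affine

namespace Fermat.Agent.Mazur

open ModularCurve AlgebraicCurve Fermat.Agent.Curve Fermat.Agent.Curve.PlaceAux Fermat.Agent.T1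
  Fermat.Agent.T2 Fermat.Agent.TW

local notation "Qb" => AlgebraicClosure ℚ
local notation "GQ" => (AlgebraicClosure ℚ ≃ₐ[ℚ] AlgebraicClosure ℚ)

/-- the inputs of S15 which are proved in the packages (E2), (E3), (R4), (R5) -/
structure MzhInputs2 (p : ℕ) [Fact p.Prime] : Prop where
  cusp_ne : mzcCusp p ≠ 0
  cusp_order : (p - 1) • mzcCusp p = 0
  cusp_hecke : ∀ q : Nat.Primes, (q : ℕ) ≠ p →
    heckeOperatorBar p q (mzcCusp p) = (1 + (q : ℕ)) • mzcCusp p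
  red_inf : ∀ (𝔓 : FFPlace) (hN : ¬ 𝔓.p ∣ p) (x : Place Qb ↥(modularFunctionFieldBar p))
    (j₁ j₂ : Qb), OrdGE x (tbJ p - algebraMap Qb ↥(modularFunctionFieldBar p) j₁) 1 →
    OrdGE x (t2cpYq p p (dvd_refl p) - algebraMap Qb ↥(modularFunctionFieldBar p) j₂) 1 →
    1 < 𝔓.P.valuation j₁ → 𝔓.P.valuation j₂ = 𝔓.P.valuation j₁ ^ p →
    mzrRho 𝔓 p hN (mzcCls p x (mzcInf p)) = 0
  red_zero : ∀ (𝔓 : FFPlace) (hN : ¬ 𝔓.p ∣ p) (x : Place Qb ↥(modularFunctionFieldBar p))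
    (j₁ j₂ : Qb), OrdGE x (tbJ p - algebraMap Qb ↥(modularFunctionFieldBar p) j₁) 1 →
    OrdGE x (t2cpYq p p (dvd_refl p) - algebraMap Qb ↥(modularFunctionFieldBar p) j₂) 1 →
    1 < 𝔓.P.valuation j₁ → 𝔓.P.valuation j₁ = 𝔓.P.valuation j₂ ^ p →
    mzrRho 𝔓 p hN (mzcCls p x (mzcZero p)) = 0
  hecke_ker : ∀ (𝔓 : FFPlace) (hN : ¬ 𝔓.p ∣ p) (q : Nat.Primes), (q : ℕ) ≠ 2 → (q : ℕ) ≠ 3 →
    (q : ℕ) ≠ p → (q : ℕ) ≠ 𝔓.p → ∀ x : JZero p, mzrRho 𝔓 p hN x = 0 →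
    mzrRho 𝔓 p hN (heckeOperatorBar p q x) = 0
  num_alpha : ∀ (𝔓 : FFPlace) (hN : ¬ 𝔓.p ∣ p) (S₀ : Finset ℕ) (hS : MzehGood p 𝔓.p S₀),
    2 ∈ S₀ → 3 ∈ S₀ → ∃ C : ℕ, ∀ k : ℕ,
      Nat.card (MzjX hS k) ≤ (mzqiX0 𝔓 p hN (mzjVal hS k)).index ^ 2 * C
  num_w : ∀ (𝔓 : FFPlace) (hN : ¬ 𝔓.p ∣ p) (S₀ : Finset ℕ) (hS : MzehGood p 𝔓.p S₀),
    2 ∈ S₀ → 3 ∈ S₀ → ∃ φ ∈ 𝔓.D, ∃ aP : ℕ, ∀ k : ℕ, ∀ χ : AddChar (MzjX hS k) Qb,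
      ∃ χ' : AddChar (MzjX hS k) Qb, ∀ x ∈ mzqiX0 𝔓 p hN (mzjVal hS k),
        χ x ^ (𝔓.p ^ aP) = φ (χ' (φ⁻¹ • x)) / χ' x

section

variable {p : ℕ} [hpF : Fact p.Prime]

/-- (R5) for the Eisenstein projectors, from (R5) for the Hecke operators -/
theorem mzh_rho_e2
    (hker : ∀ (𝔓 : FFPlace) (hN : ¬ 𝔓.p ∣ p) (q : Nat.Primes), (q : ℕ) ≠ 2 → (q : ℕ) ≠ 3 →
      (q : ℕ) ≠ p → (q : ℕ) ≠ 𝔓.p → ∀ x : JZero p, mzrRho 𝔓 p hN x = 0 →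
      mzrRho 𝔓 p hN (heckeOperatorBar p q x) = 0)
    {P : ℕ} {S₀ : Finset ℕ} (hS : MzehGood p P S₀)
    (h2 : 2 ∈ S₀) (h3 : 3 ∈ S₀) (hpS : p ∈ S₀) (𝔓 : FFPlace) (hN : ¬ 𝔓.p ∣ p)
    (h𝔓 : 𝔓.p ∈ S₀) (k : ℕ) (x : JZero p) (hx : mzrRho 𝔓 p hN x = 0) :
    mzrRho 𝔓 p hN (mzehE p P S₀ hS k x) = 0 := by
  refine mzehE_induction hS k
    (fun f => ∀ x : JZero p, mzrRho 𝔓 p hN x = 0 → mzrRho 𝔓 p hN (f x) = 0) ?_ ?_ ?_ ?_ ?_ ?_ x hx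
  · intro q x hx
    have hq : ∀ n ∈ S₀, (q.1 : ℕ) ≠ n := fun n hn h => q.2 (h ▸ hn)
    exact hker 𝔓 hN q.1 (hq 2 h2) (hq 3 h3) (hq p hpS) (hq _ h𝔓) x hx
  · intro x _
    exact map_zero _
  · intro x hx
    exact hx
  · intro f g hf hg x hx
    show mzrRho 𝔓 p hN (f x + g x) = 0
    rw [map_add, hf x hx, hg x hx, add_zero]
  · intro f hf x hx
    show mzrRho 𝔓 p hN (-f x) = 0
    rw [map_neg, hf x hx, neg_zero]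
  · intro f g hf hg x hx
    exact hf _ (hg x hx)

/-- the inputs of the endgame from the inputs of the packages -/
theorem mzh_inputs_of (I : MzhInputs2 p) (hp2 : p ≠ 2) (hp3 : p ≠ 3) : MzhInputs p := by
  have hp : p.Prime := hpF.out
  refine ⟨I.cusp_ne, I.cusp_order, I.cusp_hecke, I.red_inf, I.red_zero, I.hecke_ker, ?_⟩
  intro P S₀ hS h2S h3S hPp
  have hPprime : P.Prime := hS.1
  have hpS : p ∈ S₀ := hS.2.2 p hp (dvd_refl p)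
  have hPS : P ∈ S₀ := hS.2.1
  -- the places
  obtain ⟨Ap, hAp⟩ := Fermat.Agent.Lib.Helper6.exists_valuationSubring_liesOverPrime Qb hp
  obtain ⟨AP, hAP⟩ := Fermat.Agent.Lib.Helper6.exists_valuationSubring_liesOverPrime Qb hPprime
  obtain ⟨r, hr23, hrP⟩ : ∃ r : ℕ, (r = 2 ∨ r = 3) ∧ r ≠ P := by
    by_cases h : P = 2
    · exact ⟨3, Or.inr rfl, by omega⟩
    · exact ⟨2, Or.inl rfl, Ne.symm h⟩
  have hrprime : r.Prime := by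
    rcases hr23 with rfl | rfl <;> norm_num
  have hrp : r ≠ p := by
    rcases hr23 with rfl | rfl
    · exact Ne.symm hp2
    · exact Ne.symm hp3
  obtain ⟨Ar, hAr⟩ := Fermat.Agent.Lib.Helper6.exists_valuationSubring_liesOverPrime Qb hrprime
  let 𝔭 : FFPlace := ⟨Ap, p, hp, hAp⟩
  let 𝔓 : FFPlace := ⟨AP, P, hPprime, hAP⟩
  let 𝔯 : FFPlace := ⟨Ar, r, hrprime, hAr⟩
  have hN : ¬ 𝔓.p ∣ p := fun h => hPp ((Nat.prime_dvd_prime_iff_eq hPprime hp).mp h)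
  have hNr : ¬ 𝔯.p ∣ p := fun h => hrp ((Nat.prime_dvd_prime_iff_eq hrprime hp).mp h)
  exact mzb_bound 𝔭 𝔓 𝔯 rfl hN hNr hrP hS
    (fun k x hx => mzh_rho_e2 I.hecke_ker hS h2S h3S hpS 𝔓 hN hPS k x hx)
    (I.num_alpha 𝔓 hN S₀ hS h2S h3S) (I.num_w 𝔓 hN S₀ hS h2S h3S)

/-- **S15 from the exports of (E2), (E3), (R4), (R5)** -/
theorem mzh_final (I : MzhInputs2 p) (hp' : p ∉ ({2, 3, 5, 7, 13} : Finset ℕ))
    (W : WeierstrassCurve ℤ) (hΔ : W.Δ ≠ 0)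
    (Q : ((W.map (Int.castRingHom ℚ))⁄Qb).Point)
    (hQfix : ∀ σ : GQ, σ • Q = Q) (hQord : addOrderOf Q = p)
    (h2Δ : (2 : ℤ) ∣ W.Δ) (h2c₄ : ¬ (2 : ℤ) ∣ W.c₄)
    (h2 : ∀ A : ValuationSubring Qb, A.LiesOverPrime 2 → ¬ W.InZeroComponentAt A Q)
    (h3Δ : (3 : ℤ) ∣ W.Δ) (h3c₄ : ¬ (3 : ℤ) ∣ W.c₄)
    (h3 : ∀ A : ValuationSubring Qb, A.LiesOverPrime 3 → ¬ W.InZeroComponentAt A Q)
    {ℓ : ℕ} (hℓ : ℓ.Prime) (hℓp : ℓ ≠ p) (hℓΔ : (ℓ : ℤ) ∣ W.Δ) (hℓc₄ : ¬ (ℓ : ℤ) ∣ W.c₄)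
    (A : ValuationSubring Qb) (hA : A.LiesOverPrime ℓ) :
    ¬ W.InZeroComponentAt A Q := by
  have hp2 : p ≠ 2 := by
    rintro rfl
    exact hp' (by decide)
  have hp3 : p ≠ 3 := by
    rintro rfl
    exact hp' (by decide)
  exact mzh_main (mzh_inputs_of I hp2 hp3) hp' W hΔ Q hQfix hQord h2Δ h2c₄ h2 h3Δ h3c₄ h3
    hℓ hℓp hℓΔ hℓc₄ A hA

end

end Fermat.Agent.Mazur
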